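import Fermat.Agent.S48.Eis.Period

set_option autoImplicit false

open UpperHalfPlane hiding I
open Complex Real Filter Topology
open scoped MatrixGroups ModularForm Manifold

noncomputable section

namespace Fermat.Agent.S48.Eis

/-- If `(a₀τ+a₁)/N + mτ + n = 0` then (imaginary and real parts; `im τ > 0`) `a₀ = -N m` and
`a₁ = -N n`. -/
theorem notLat_dp (N : ℕ) [NeZero N] (a : Fin 2 → ℤ) (ha : NZ N a) (τ : ℍ) :
    NotLat τ (dp N a τ) := by
  intro m n h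
  apply ha
  have hN : (N : ℝ) ≠ 0 := by exact_mod_cast NeZero.ne N
  have hNc : (N : ℂ) ≠ 0 := by exact_mod_cast NeZero.ne N
  have hτ : 0 < (τ : ℂ).im := τ.im_pos
  unfold dp at h
  have h1 : ((a 0 : ℂ) + (N : ℂ) * (m : ℂ)) * (τ : ℂ) + ((a 1 : ℂ) + (N : ℂ) * (n : ℂ)) = 0 := by
    have h2 := congrArg (fun w : ℂ => w * (N : ℂ)) h
    simp only [zero_mul, add_mul, div_mul_cancel₀ _ hNc] at h2
    linear_combination h2
  have him := congrArg Complex.im h1
  have hre := congrArg Complex.re h1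
  have e0 : ((a 0 : ℂ) + (N : ℂ) * (m : ℂ)) = (((a 0 + (N : ℤ) * m : ℤ) : ℝ) : ℂ) := by push_cast; ring
  have e1 : ((a 1 : ℂ) + (N : ℂ) * (n : ℂ)) = (((a 1 + (N : ℤ) * n : ℤ) : ℝ) : ℂ) := by push_cast; ring
  rw [e0, e1] at him hre
  simp only [Complex.add_im, Complex.mul_im, Complex.ofReal_re, Complex.ofReal_im, zero_mul,
    add_zero, Complex.zero_im] at him
  have h3 : ((a 0 + (N : ℤ) * m : ℤ) : ℝ) = 0 := (mul_eq_zero.1 him).resolve_right hτ.ne'
  simp only [Complex.add_re, Complex.mul_re, Complex.ofReal_re, Complex.ofReal_im, zero_mul,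
    sub_zero, Complex.zero_re, h3, zero_add] at hre
  have h4 : a 0 + (N : ℤ) * m = 0 := by exact_mod_cast h3
  have h5 : a 1 + (N : ℤ) * n = 0 := by exact_mod_cast hre
  exact ⟨⟨-m, by linarith⟩, ⟨-n, by linarith⟩⟩

/-- `dp N (a + N u) τ = dp N a τ + u₀ τ + u₁`, then `K_add_lat`:
`K τ (..) + 2πi (a₀ + N u₀)/N = K τ (dp N a τ) - 2πi u₀ + 2πi a₀/N + 2πi u₀`. -/
theorem Gv_add (N : ℕ) [NeZero N] (a u : Fin 2 → ℤ) (ha : NZ N a) :
    Gv N (a + (N : ℤ) • u) = Gv N a := by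
  funext τ
  have hNc : (N : ℂ) ≠ 0 := by exact_mod_cast NeZero.ne N
  have h1 : dp N (a + (N : ℤ) • u) τ = dp N a τ + (u 0 : ℂ) * (τ : ℂ) + (u 1 : ℂ) := by
    unfold dp
    simp only [Pi.add_apply, Pi.smul_apply, smul_eq_mul]
    push_cast
    field_simp
    ring
  unfold Gv
  rw [h1, K_add_lat τ _ (notLat_dp N a ha τ)]
  simp only [Pi.add_apply, Pi.smul_apply, smul_eq_mul]
  push_cast
  field_simp
  ring

theorem Gv_congr (N : ℕ) [NeZero N] (a b : Fin 2 → ℤ) (ha : NZ N a)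
    (h0 : (N : ℤ) ∣ b 0 - a 0) (h1 : (N : ℤ) ∣ b 1 - a 1) : Gv N b = Gv N a := by
  obtain ⟨u0, hu0⟩ := h0
  obtain ⟨u1, hu1⟩ := h1
  have hb : b = a + (N : ℤ) • ![u0, u1] := by
    funext i
    fin_cases i
    · simp only [Fin.zero_eta, Pi.add_apply, Pi.smul_apply, smul_eq_mul, Matrix.cons_val_zero]
      linarith
    · simp only [Fin.mk_one, Pi.add_apply, Pi.smul_apply, smul_eq_mul, Matrix.cons_val_one,
        Matrix.cons_val_fin_one]
      linarith
  rw [hb, Gv_add N a _ ha]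

end Fermat.Agent.S48.Eis
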