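import Fermat.Agent.S48.Eis.Gv.KBound
import Fermat.Agent.S48.Eis.Gv.Congr

set_option autoImplicit false

open UpperHalfPlane hiding I
open Complex Real Filter Topology
open scoped MatrixGroups ModularForm Manifold

noncomputable section

namespace Fermat.Agent.S48.Eis

/-- Boundedness at `i∞` for `0 ≤ a₀ < N`.  Use `UpperHalfPlane.isBoundedAtImInfty_iff` with `A = 1`.
For `y = im τ ≥ 1`, `z = dp N a τ`, `im z = a₀ y / N`, `δ = 1/N`:
`im (z + mτ) = (a₀/N + m) y ≥ m/N` and `im (mτ - z) = (m - a₀/N) y ≥ m y/N ≥ m/N` since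
`a₀ ≤ N - 1` and `m ≥ 1`.  So `norm_K_sub_cot_le` bounds `K τ z - π cot (πz)` by a constant.
`π cot (πz)`: if `a₀ = 0` then `z = a₁/N` does not depend on `τ`; if `a₀ ≥ 1` then `im z ≥ 1/N` and
`‖cot (πz)‖ ≤ 1 + ‖cot (πz) + i‖ ≤ 1 + 2ρ/(1-ρ)` by `norm_cot_add_I_le'` (`m = 1`).
The term `2πi a₀/N` is constant. -/
theorem Gv_bdd_aux (N : ℕ) [NeZero N] (a : Fin 2 → ℤ) (ha : NZ N a) (h0 : 0 ≤ a 0)
    (h1 : a 0 < N) : IsBoundedAtImInfty (Gv N a) := by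
  rw [UpperHalfPlane.isBoundedAtImInfty_iff]
  have hN : (1 : ℝ) ≤ (N : ℝ) := by exact_mod_cast Nat.one_le_iff_ne_zero.2 (NeZero.ne N)
  have hN0 : (0 : ℝ) < N := by linarith
  obtain ⟨δ, hδdef⟩ : ∃ δ : ℝ, δ = 1 / N := ⟨_, rfl⟩
  have hδ : 0 < δ := by rw [hδdef]; positivity
  obtain ⟨ρ, hρ⟩ : ∃ ρ : ℝ, ρ = rexp (-2 * π * δ) := ⟨_, rfl⟩
  have hρ0 : 0 < ρ := by rw [hρ]; exact Real.exp_pos _
  have hρ1 : ρ < 1 := by
    rw [hρ, Real.exp_lt_one_iff]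
    have := Real.pi_pos
    nlinarith
  have hα0 : (0 : ℝ) ≤ (a 0 : ℝ) := by exact_mod_cast h0
  have hα1 : (a 0 : ℝ) ≤ N - 1 := by
    have : a 0 ≤ (N : ℤ) - 1 := by omega
    exact_mod_cast this
  refine ⟨4 * π * ρ / (1 - ρ) ^ 2 + (‖(π : ℂ) * cot (π * ((a 1 : ℂ) / N))‖ +
    π * (1 + 2 * ρ ^ 1 / (1 - ρ))) + ‖2 * π * I * (a 0 : ℂ) / (N : ℂ)‖, 1, fun τ hτ => ?_⟩
  have him : (dp N a τ).im = a 0 * τ.im / N := by
    simp [dp, Complex.div_natCast_im]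
  have hb1 : ∀ m : ℕ, 1 ≤ m → m * δ ≤ (dp N a τ + (m : ℂ) * τ).im := by
    intro m hm
    have hm' : (1 : ℝ) ≤ m := by exact_mod_cast hm
    have e : (dp N a τ + (m : ℂ) * τ).im = a 0 * τ.im / N + m * τ.im := by
      rw [Complex.add_im, him]
      simp
    rw [e, hδdef]
    have h3 : (0 : ℝ) ≤ a 0 * τ.im / N := by
      have : 0 ≤ τ.im := by linarith
      positivity
    have h4 : (m : ℝ) * (1 / N) ≤ m := by
      rw [mul_one_div, div_le_iff₀ hN0]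
      nlinarith
    nlinarith
  have hb2 : ∀ m : ℕ, 1 ≤ m → m * δ ≤ ((m : ℂ) * τ - dp N a τ).im := by
    intro m hm
    have hm' : (1 : ℝ) ≤ m := by exact_mod_cast hm
    have e : ((m : ℂ) * τ - dp N a τ).im = (m * N - a 0) * τ.im / N := by
      rw [Complex.sub_im, him]
      simp
      field_simp
    rw [e, hδdef, mul_one_div]
    apply div_le_div_of_nonneg_right _ hN0.le
    have h5 : (m : ℝ) ≤ m * N - a 0 := by nlinarith
    nlinarith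
  have hK := norm_K_sub_cot_le τ (dp N a τ) (notLat_dp N a ha τ) δ hδ hb1 hb2
  rw [← hρ] at hK
  have hpos : 0 ≤ π * (1 + 2 * ρ ^ 1 / (1 - ρ)) := by
    have : 0 < 1 - ρ := by linarith
    have := Real.pi_pos
    positivity
  have hcot : ‖(π : ℂ) * cot (π * dp N a τ)‖ ≤ ‖(π : ℂ) * cot (π * ((a 1 : ℂ) / N))‖ +
      π * (1 + 2 * ρ ^ 1 / (1 - ρ)) := by
    rcases eq_or_lt_of_le h0 with h00 | h00
    · have e : dp N a τ = (a 1 : ℂ) / N := by simp [dp, ← h00]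
      rw [e]
      linarith
    · have hα : (1 : ℝ) ≤ (a 0 : ℝ) := by exact_mod_cast h00
      have h6 : ((1 : ℕ) : ℝ) * δ ≤ (dp N a τ).im := by
        rw [him, hδdef, Nat.cast_one, one_mul]
        apply div_le_div_of_nonneg_right _ hN0.le
        nlinarith
      have h7 := norm_cot_add_I_le' (dp N a τ) δ hδ 1 le_rfl h6
      rw [← hρ] at h7
      have h8 : ‖cot (π * dp N a τ)‖ ≤ 1 + 2 * ρ ^ 1 / (1 - ρ) := by
        calc ‖cot (π * dp N a τ)‖ = ‖(cot (π * dp N a τ) + I) - I‖ := by rw [add_sub_cancel_right]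
          _ ≤ ‖cot (π * dp N a τ) + I‖ + ‖I‖ := norm_sub_le _ _
          _ ≤ 1 + 2 * ρ ^ 1 / (1 - ρ) := by rw [Complex.norm_I]; linarith
      have h9 : ‖(π : ℂ) * cot (π * dp N a τ)‖ = π * ‖cot (π * dp N a τ)‖ := by
        rw [norm_mul, Complex.norm_real, Real.norm_eq_abs, abs_of_pos Real.pi_pos]
      rw [h9]
      have := mul_le_mul_of_nonneg_left h8 Real.pi_pos.le
      have := norm_nonneg ((π : ℂ) * cot (π * ((a 1 : ℂ) / N)))
      linarith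
  calc ‖Gv N a τ‖ = ‖(K τ (dp N a τ) - π * cot (π * dp N a τ)) + π * cot (π * dp N a τ) +
        2 * π * I * (a 0 : ℂ) / (N : ℂ)‖ := by rw [Gv, sub_add_cancel]
    _ ≤ ‖K τ (dp N a τ) - π * cot (π * dp N a τ)‖ + ‖(π : ℂ) * cot (π * dp N a τ)‖ +
        ‖2 * π * I * (a 0 : ℂ) / (N : ℂ)‖ := norm_add₃_le
    _ ≤ _ := by linarith

/-- Reduce to `Gv_bdd_aux` by `Gv_congr` (replace `a₀` by `a₀ % N`). -/
theorem Gv_bdd (N : ℕ) [NeZero N] (a : Fin 2 → ℤ) (ha : NZ N a) :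
    IsBoundedAtImInfty (Gv N a) := by
  have hNpos : (0 : ℤ) < N := by exact_mod_cast Nat.pos_of_ne_zero (NeZero.ne N)
  have hd : (N : ℤ) ∣ a 0 - a 0 % N := Int.dvd_self_sub_emod
  have hb : NZ N ![a 0 % N, a 1] := by
    rintro ⟨h0, h1⟩
    apply ha
    refine ⟨?_, h1⟩
    have h0' : (N : ℤ) ∣ a 0 % N := h0
    have := dvd_add hd h0'
    rwa [sub_add_cancel] at this
  have e : Gv N a = Gv N ![a 0 % N, a 1] :=
    Gv_congr N ![a 0 % N, a 1] a hb hd (by simp)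
  rw [e]
  exact Gv_bdd_aux N _ hb (Int.emod_nonneg _ hNpos.ne') (Int.emod_lt_of_pos _ hNpos)

end Fermat.Agent.S48.Eis
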