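import Fermat.Agent.S48.Eis.Cot.Outer
import Fermat.Agent.S48.Eis.Cot.Bound

set_option autoImplicit false

open UpperHalfPlane hiding I
open Complex Real Filter Topology
open scoped MatrixGroups ModularForm Manifold

noncomputable section

namespace Fermat.Agent.S48.Eis

theorem KBound_cot_neg (w : ℂ) : cot (-w) = -cot w := by
  rw [Complex.cot_eq_cos_div_sin, Complex.cot_eq_cos_div_sin, Complex.cos_neg, Complex.sin_neg,
    div_neg]

/-- Uniform bound for `K τ z - π cot (πz)`.  With `ρ = e^{-2πδ}`: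
`cot (π(z+mτ)) + cot (π(z-mτ)) = (cot (π(z+mτ)) + i) - (cot (π(mτ-z)) + i)` has norm
`≤ 4 ρ^m / (1-ρ)` by `norm_cot_add_I_le'`; so every partial sum in `tendsto_K'` has norm
`≤ 4π ∑_{m ≥ 1} ρ^m/(1-ρ) = 4π ρ/(1-ρ)²`; conclude by `le_of_tendsto` (norm is continuous). -/
theorem norm_K_sub_cot_le (τ : ℍ) (z : ℂ) (hz : NotLat τ z) (δ : ℝ) (hδ : 0 < δ)
    (h1 : ∀ m : ℕ, 1 ≤ m → m * δ ≤ (z + (m : ℂ) * τ).im)
    (h2 : ∀ m : ℕ, 1 ≤ m → m * δ ≤ ((m : ℂ) * τ - z).im) :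
    ‖K τ z - π * cot (π * z)‖ ≤
      4 * π * rexp (-2 * π * δ) / (1 - rexp (-2 * π * δ)) ^ 2 := by
  set ρ : ℝ := rexp (-2 * π * δ) with hρ
  have hρ0 : 0 < ρ := Real.exp_pos _
  have hρ1 : ρ < 1 := by
    rw [hρ, Real.exp_lt_one_iff]
    have := Real.pi_pos
    nlinarith [mul_pos this hδ]
  have h1ρ : 0 < 1 - ρ := by linarith
  have hterm : ∀ m : ℕ, ‖(π * cot (π * (z + ((m : ℂ) + 1) * τ)) +
      π * cot (π * (z - ((m : ℂ) + 1) * τ)) : ℂ)‖ ≤ 4 * π * ρ / (1 - ρ) * ρ ^ m := by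
    intro m
    have ha := norm_cot_add_I_le' (z + ((m + 1 : ℕ) : ℂ) * τ) δ hδ (m + 1) (Nat.succ_pos m)
      (h1 (m + 1) (Nat.succ_pos m))
    have hb := norm_cot_add_I_le' (((m + 1 : ℕ) : ℂ) * τ - z) δ hδ (m + 1) (Nat.succ_pos m)
      (h2 (m + 1) (Nat.succ_pos m))
    rw [← hρ] at ha hb
    have hcast : ((m + 1 : ℕ) : ℂ) = (m : ℂ) + 1 := by push_cast; ring
    rw [hcast] at ha hb
    have hneg : cot (π * (z - ((m : ℂ) + 1) * τ)) = -cot (π * (((m : ℂ) + 1) * τ - z)) := by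
      rw [← KBound_cot_neg]
      congr 1
      ring
    have heq : (π * cot (π * (z + ((m : ℂ) + 1) * τ)) +
        π * cot (π * (z - ((m : ℂ) + 1) * τ)) : ℂ) =
        π * ((cot (π * (z + ((m : ℂ) + 1) * τ)) + I) - (cot (π * (((m : ℂ) + 1) * τ - z)) + I)) := by
      rw [hneg]
      ring
    rw [heq, norm_mul, Complex.norm_real, Real.norm_of_nonneg Real.pi_pos.le]
    have h3 := (norm_sub_le _ _).trans (add_le_add ha hb)
    calc π * ‖(cot (π * (z + ((m : ℂ) + 1) * τ)) + I) - (cot (π * (((m : ℂ) + 1) * τ - z)) + I)‖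
        ≤ π * (2 * ρ ^ (m + 1) / (1 - ρ) + 2 * ρ ^ (m + 1) / (1 - ρ)) :=
          mul_le_mul_of_nonneg_left h3 Real.pi_pos.le
      _ = 4 * π * ρ / (1 - ρ) * ρ ^ m := by
          rw [pow_succ]
          ring
  have hgeo : ∀ M : ℕ, ∑ m ∈ Finset.range M, ρ ^ m ≤ (1 - ρ)⁻¹ := by
    intro M
    rw [← tsum_geometric_of_lt_one hρ0.le hρ1]
    exact (summable_geometric_of_lt_one hρ0.le hρ1).sum_le_tsum _ (fun i _ => pow_nonneg hρ0.le i)
  have hc : 0 ≤ 4 * π * ρ / (1 - ρ) := by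
    have := Real.pi_pos
    positivity
  refine le_of_tendsto (tendsto_K' τ z hz).norm (Eventually.of_forall fun M => ?_)
  calc ‖∑ m ∈ Finset.range M, (π * cot (π * (z + ((m : ℂ) + 1) * τ)) +
        π * cot (π * (z - ((m : ℂ) + 1) * τ)) : ℂ)‖
      ≤ ∑ m ∈ Finset.range M, 4 * π * ρ / (1 - ρ) * ρ ^ m :=
        norm_sum_le_of_le _ (fun m _ => hterm m)
    _ = 4 * π * ρ / (1 - ρ) * ∑ m ∈ Finset.range M, ρ ^ m := by rw [Finset.mul_sum]
    _ ≤ 4 * π * ρ / (1 - ρ) * (1 - ρ)⁻¹ := mul_le_mul_of_nonneg_left (hgeo M) hc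
    _ = 4 * π * ρ / (1 - ρ) ^ 2 := by
        field_simp

end Fermat.Agent.S48.Eis
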