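import Fermat.Agent.S48.Eis.Defs

set_option autoImplicit false

open UpperHalfPlane hiding I
open Complex Real Filter Topology
open scoped MatrixGroups ModularForm Manifold

noncomputable section

namespace Fermat.Agent.S48.Eis

/-- **Lambert series rearrangement** for a bounded coefficient function.
`(m, r) ↦ f (r+1) q^{(m+1)(r+1)}` is summable on `ℕ × ℕ` (norm `≤ C ‖q‖^{(m+1)(r+1)}`; compare
Mathlib's `summable_prod_mul_pow`, `tsum_prod_pow_eq_tsum_sigma`, `sigmaAntidiagonalEquivProd` in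
`Mathlib/NumberTheory/TsumDivsorsAntidiagonal.lean`), and grouping by `n = (m+1)(r+1)` gives the
divisor sum. -/
theorem lambert (f : ℕ → ℂ) (C : ℝ) (hf : ∀ r, ‖f r‖ ≤ C) (q : ℂ) (hq : ‖q‖ < 1) :
    (∀ m : ℕ, Summable fun r : ℕ => f (r + 1) * q ^ ((m + 1) * (r + 1))) ∧
    (Summable fun m : ℕ => ∑' r : ℕ, f (r + 1) * q ^ ((m + 1) * (r + 1))) ∧
    HasSum (fun n : ℕ => (∑ r ∈ (n + 1).divisors, f r) * q ^ (n + 1))
      (∑' m : ℕ, ∑' r : ℕ, f (r + 1) * q ^ ((m + 1) * (r + 1))) := by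
  set g : ℕ+ × ℕ+ → ℂ := fun c => f c.2 * q ^ ((c.1 : ℕ) * (c.2 : ℕ)) with hg
  have hgs : Summable g := by
    have h0 := (summable_prod_mul_pow (𝕜 := ℂ) 0 hq).norm
    refine Summable.of_norm_bounded
      (g := fun c : ℕ+ × ℕ+ => C * ‖((c.2 : ℕ) : ℂ) ^ 0 * q ^ ((c.1 : ℕ) * (c.2 : ℕ))‖)
      (h0.mul_left C) ?_
    intro c
    simp only [hg, norm_mul, pow_zero, one_mul]
    gcongr
    exact hf _
  let e : ℕ × ℕ ≃ ℕ+ × ℕ+ := (Equiv.pnatEquivNat.symm).prodCongr Equiv.pnatEquivNat.symm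
  have hge : (fun c : ℕ × ℕ => f (c.2 + 1) * q ^ ((c.1 + 1) * (c.2 + 1))) = g ∘ e := by
    funext c
    simp [hg, e]
  have hgs' : Summable (fun c : ℕ × ℕ => f (c.2 + 1) * q ^ ((c.1 + 1) * (c.2 + 1))) := by
    rw [hge]
    exact e.summable_iff.mpr hgs
  refine ⟨fun m => hgs'.prod_factor m, hgs'.prod, ?_⟩
  have htot : (∑' m : ℕ, ∑' r : ℕ, f (r + 1) * q ^ ((m + 1) * (r + 1))) = ∑' c, g c := by
    rw [← hgs'.tsum_prod (f := fun c : ℕ × ℕ => f (c.2 + 1) * q ^ ((c.1 + 1) * (c.2 + 1))), hge]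
    exact e.tsum_eq g
  rw [htot]
  have h1 : HasSum (g ∘ sigmaAntidiagonalEquivProd) (∑' c, g c) :=
    sigmaAntidiagonalEquivProd.hasSum_iff.mpr hgs.hasSum
  have h2 := h1.sigma (fun n => hasSum_fintype _)
  have h3 : HasSum (fun n : ℕ+ => (∑ r ∈ (n : ℕ).divisors, f r) * q ^ (n : ℕ)) (∑' c, g c) := by
    refine h2.congr_fun (fun n => ?_)
    have hA : ∑ x : (n : ℕ).divisorsAntidiagonal, (g ∘ sigmaAntidiagonalEquivProd) ⟨n, x⟩ =
        ∑ x ∈ (n : ℕ).divisorsAntidiagonal, f x.2 * q ^ (x.1 * x.2) := by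
      rw [← (n : ℕ).divisorsAntidiagonal.sum_attach (fun x : ℕ × ℕ ↦ f x.2 * q ^ (x.1 * x.2))]
      rfl
    rw [hA, Nat.sum_divisorsAntidiagonal' (fun x y => f y * q ^ (x * y)), Finset.sum_mul]
    refine Finset.sum_congr rfl (fun i hi => ?_)
    rw [Nat.div_mul_cancel (Nat.dvd_of_mem_divisors hi)]
  have h4 := Equiv.pnatEquivNat.symm.hasSum_iff.mpr h3
  refine h4.congr_fun (fun n => ?_)
  simp

end Fermat.Agent.S48.Eis
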