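import Fermat.Agent.S48.Eis.Defs

set_option autoImplicit false

open UpperHalfPlane hiding I
open Complex Real Filter Topology
open scoped MatrixGroups ModularForm Manifold

noncomputable section

namespace Fermat.Agent.S48.Eis

theorem pi_cot_eq (w : ℂ) (hw : 0 < w.im) :
    π * cot (π * w) = -(π * I) - 2 * π * I * ∑' r : ℕ, cexp (2 * π * I * w) ^ (r + 1) := by
  have h := pi_mul_cot_pi_q_exp ⟨w, hw⟩
  have hn : ‖cexp (2 * π * I * w)‖ < 1 := UpperHalfPlane.norm_exp_two_pi_I_lt_one ⟨w, hw⟩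
  have hs : Summable fun n : ℕ => cexp (2 * π * I * w) ^ n := summable_geometric_of_norm_lt_one hn
  change π * cot (π * w) = π * I - 2 * π * I * ∑' n : ℕ, cexp (2 * π * I * w) ^ n at h
  rw [h, hs.tsum_eq_zero_add, pow_zero]
  ring

theorem norm_zetaC_zpow (N : ℕ) (k : ℤ) : ‖zetaC N ^ k‖ = 1 := by
  have h1 : ‖zetaC N‖ = 1 := by
    have : (2 * π * I / (N : ℂ)) = ((2 * π / N : ℝ) : ℂ) * I := by
      push_cast
      ring
    rw [zetaC, this, Complex.norm_exp_ofReal_mul_I]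
  rw [norm_zpow, h1, one_zpow]

lemma Pair_zetaC_zpow (N : ℕ) (a : ℤ) : zetaC N ^ a = cexp (2 * π * I * ((a : ℂ) / N)) := by
  rw [zetaC, ← Complex.exp_int_mul]
  congr 1
  ring

theorem pi_cot_div (N : ℕ) [NeZero N] (a : ℤ) (ha : ¬ (N : ℤ) ∣ a) :
    π * cot (π * ((a : ℂ) / N)) = π * I * ((zetaC N ^ a + 1) / (zetaC N ^ a - 1)) := by
  rw [Complex.cot_pi_eq_exp_ratio, Pair_zetaC_zpow]
  set E := cexp (2 * π * I * ((a : ℂ) / N)) with hE
  by_cases h1 : E - 1 = 0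
  · have : 1 - E = 0 := by linear_combination -h1
    rw [h1, this]
    simp
  · have h2 : 1 - E ≠ 0 := fun h => h1 (by linear_combination -h)
    field_simp
    have := Complex.I_sq
    linear_combination (E ^ 2 - 1) * this

lemma Pair_exp (N : ℕ) [NeZero N] (a : ℤ) (τ : ℍ) (m : ℕ) :
    cexp (2 * π * I * ((a : ℂ) / N + ((m : ℂ) + 1) * τ))
      = zetaC N ^ a * Function.Periodic.qParam 1 τ ^ (m + 1) := by
  rw [Pair_zetaC_zpow, Function.Periodic.qParam, ← Complex.exp_nat_mul, ← Complex.exp_add]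
  congr 1
  push_cast
  ring

theorem pair_eq (N : ℕ) [NeZero N] (a : ℤ) (τ : ℍ) (m : ℕ) :
    π * cot (π * ((a : ℂ) / N + ((m : ℂ) + 1) * τ)) + π * cot (π * ((a : ℂ) / N - ((m : ℂ) + 1) * τ))
      = -(2 * π * I) * ∑' r : ℕ, (zetaC N ^ (a * ((r + 1 : ℕ) : ℤ)) - zetaC N ^ (-(a * ((r + 1 : ℕ) : ℤ))))
          * Function.Periodic.qParam 1 τ ^ ((m + 1) * (r + 1)) := by
  have him : ∀ b : ℤ, 0 < ((b : ℂ) / N + ((m : ℂ) + 1) * τ).im := by
    intro b
    have h1 : ((b : ℂ) / N).im = 0 := by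
      have : ((b : ℂ) / N) = (((b : ℝ) / N : ℝ) : ℂ) := by push_cast; ring
      rw [this, Complex.ofReal_im]
    have h2 : (((m : ℂ) + 1) * τ).im = ((m : ℝ) + 1) * τ.im := by
      have : ((m : ℂ) + 1) = (((m : ℝ) + 1 : ℝ) : ℂ) := by push_cast; ring
      rw [this, Complex.im_ofReal_mul]
      rfl
    rw [Complex.add_im, h1, h2, zero_add]
    have := τ.im_pos
    positivity
  have hneg : π * ((a : ℂ) / N - ((m : ℂ) + 1) * τ)
      = -(π * (((-a : ℤ) : ℂ) / N + ((m : ℂ) + 1) * τ)) := by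
    push_cast
    ring
  have hcn : ∀ z : ℂ, cot (-z) = -cot z := by
    intro z
    rw [Complex.cot_eq_cos_div_sin, Complex.cot_eq_cos_div_sin, Complex.cos_neg, Complex.sin_neg,
      div_neg]
  rw [hneg, hcn, mul_neg, pi_cot_eq _ (him a), pi_cot_eq _ (him (-a)), Pair_exp,
    Pair_exp]
  set q := Function.Periodic.qParam 1 τ with hq
  have hsum : ∀ b : ℤ, Summable fun r : ℕ => (zetaC N ^ b * q ^ (m + 1)) ^ (r + 1) := by
    intro b
    have hn : ‖zetaC N ^ b * q ^ (m + 1)‖ < 1 := by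
      rw [← Pair_exp]
      exact UpperHalfPlane.norm_exp_two_pi_I_lt_one ⟨_, him b⟩
    exact (summable_nat_add_iff 1).2 (summable_geometric_of_norm_lt_one hn)
  have : ∑' r : ℕ, (zetaC N ^ (a * ((r + 1 : ℕ) : ℤ)) - zetaC N ^ (-(a * ((r + 1 : ℕ) : ℤ))))
          * q ^ ((m + 1) * (r + 1))
      = ∑' r : ℕ, (zetaC N ^ a * q ^ (m + 1)) ^ (r + 1)
        - ∑' r : ℕ, (zetaC N ^ (-a) * q ^ (m + 1)) ^ (r + 1) := by
    rw [← (hsum a).tsum_sub (hsum (-a))]
    refine tsum_congr fun r => ?_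
    rw [mul_pow, mul_pow, ← pow_mul, ← zpow_natCast (zetaC N ^ a), ← zpow_natCast (zetaC N ^ (-a)),
      ← zpow_mul, ← zpow_mul, neg_mul]
    ring
  rw [this]
  ring

end Fermat.Agent.S48.Eis
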