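import Fermat.Agent.S48.Eis.Gv.Lambert
import Fermat.Agent.S48.Eis.Gv.Pair
import Fermat.Agent.S48.Eis.Gv.Congr

set_option autoImplicit false

open UpperHalfPlane hiding I
open Complex Real Filter Topology
open scoped MatrixGroups ModularForm Manifold

noncomputable section

namespace Fermat.Agent.S48.Eis

/-- **The `q`-expansion of `G_{(0,a)}`.**  `Gv N ![0,a] τ = K τ (a/N)`.  By `tendsto_K'` and `pair_eq`
`K τ (a/N) - π cot (π a/N)` is the limit of the partial sums of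
`m ↦ -(2πi) ∑' r, f (r+1) q^{(m+1)(r+1)}`, `f r = ζ^{ar} - ζ^{-ar}`, `‖f r‖ ≤ 2`; by `lambert` this
series is summable, so the limit is its `tsum` (`HasSum.tendsto_sum_nat`, `tendsto_nhds_unique`), which
`lambert` identifies with `∑_{n ≥ 1} (∑_{r ∣ n} f r) q^n`.  Finally `pi_cot_div` for the constant
term and `hasSum_nat_add_iff' 1` (or `HasSum.zero_add`) to add the term `n = 0`. -/
theorem Gv_hasSum (N : ℕ) [NeZero N] (a : ℤ) (ha : ¬ (N : ℤ) ∣ a) (τ : ℍ) :
    HasSum (fun n : ℕ => cG N a n • Function.Periodic.qParam 1 τ ^ n) (Gv N ![0, a] τ) := by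
  set q := Function.Periodic.qParam 1 τ with hqdef
  have hq : ‖q‖ < 1 := by
    rw [hqdef]
    simpa using UpperHalfPlane.norm_qParam_lt_one 1 τ
  set f : ℕ → ℂ := fun r => zetaC N ^ (a * (r : ℤ)) - zetaC N ^ (-(a * (r : ℤ))) with hf
  have hfb : ∀ r, ‖f r‖ ≤ 2 := by
    intro r
    refine (norm_sub_le _ _).trans ?_
    rw [norm_zetaC_zpow, norm_zetaC_zpow]
    norm_num
  obtain ⟨-, hs2, hs3⟩ := lambert f 2 hfb q hq
  have hNZ : NZ N ![0, a] := by
    intro h
    exact ha (by simpa using h.2)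
  have hdp : dp N ![0, a] τ = (a : ℂ) / N := by
    simp [dp]
  have hlat : NotLat τ ((a : ℂ) / N) := hdp ▸ notLat_dp N ![0, a] hNZ τ
  have hGv : Gv N ![0, a] τ = K τ ((a : ℂ) / N) := by
    simp [Gv, hdp]
  have h1 := tendsto_K' τ ((a : ℂ) / N) hlat
  simp only [pair_eq N a τ] at h1
  have h2 : HasSum (fun m : ℕ => -(2 * π * I) * ∑' r : ℕ, f (r + 1) * q ^ ((m + 1) * (r + 1)))
      (-(2 * π * I) * ∑' m : ℕ, ∑' r : ℕ, f (r + 1) * q ^ ((m + 1) * (r + 1))) :=
    hs2.hasSum.mul_left _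
  have h3 := tendsto_nhds_unique h1 h2.tendsto_sum_nat
  have h4 : HasSum (fun n : ℕ => cG N a (n + 1) • q ^ (n + 1))
      (K τ ((a : ℂ) / N) - π * cot (π * ((a : ℂ) / N))) := by
    rw [h3]
    refine (hs3.mul_left (-(2 * π * I))).congr_fun (fun n => ?_)
    simp only [cG, Nat.succ_ne_zero, if_false, smul_eq_mul, hf]
    ring
  rw [hGv]
  have h0 : ∑ i ∈ Finset.range 1, cG N a i • q ^ i = π * cot (π * ((a : ℂ) / N)) := by
    rw [pi_cot_div N a ha]
    simp [cG]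
  rw [← h0] at h4
  exact (hasSum_nat_add_iff' (f := fun n : ℕ => cG N a n • q ^ n) 1).mp h4

end Fermat.Agent.S48.Eis
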