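import Fermat.Agent.S48.Eis.Zeta.KSmul

set_option autoImplicit false

open UpperHalfPlane hiding I
open Complex Real Filter Topology
open scoped MatrixGroups ModularForm Manifold

noncomputable section

namespace Fermat.Agent.S48.Eis

theorem Slash_denom (γ : SL(2, ℤ)) (τ : ℍ) :
    denom γ τ = (γ 1 0 : ℂ) * (τ : ℂ) + (γ 1 1 : ℂ) := by
  rw [ModularGroup.denom_apply]

/-- `(a₀ γτ + a₁)/N = ((aγ)₀ τ + (aγ)₁)/N / (cτ+d)`. -/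
theorem dp_smul (N : ℕ) (a : Fin 2 → ℤ) (γ : SL(2, ℤ)) (τ : ℍ) :
    dp N a (γ • τ) = dp N (Matrix.vecMul a (γ : Matrix (Fin 2) (Fin 2) ℤ)) τ / denom γ τ := by
  have hj : denom γ τ ≠ 0 := denom_ne_zero γ τ
  have hj' : denom γ τ = (γ 1 0 : ℂ) * (τ : ℂ) + (γ 1 1 : ℂ) := Slash_denom γ τ
  have h1 : ((γ • τ : ℍ) : ℂ) = ((γ 0 0 : ℂ) * (τ : ℂ) + (γ 0 1 : ℂ)) / denom γ τ := by
    rw [hj', coe_specialLinearGroup_apply]
    simp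
  unfold dp
  rw [h1]
  simp only [Matrix.vecMul, dotProduct, Fin.sum_univ_two]
  push_cast
  by_cases hN : (N : ℂ) = 0
  · simp [hN]
  · field_simp
    rw [hj']
    ring

/-- **Weight one equivariance** `G_a ∣[1] γ = G_{aγ}` for all `γ ∈ SL₂(ℤ)` and all `a ∈ ℤ²`.
Proof.  Write `γ = (p q; c d)`, `j = cτ+d`, `z' = dp N (aγ) τ`.  By `ModularForm.SL_slash_apply`,
`dp_smul`, `K_smul`:  `(G_a ∣ γ)(τ) = j⁻¹ (j K τ z' + 2πi c z' + 2πi a₀/N)`, and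
`c z' + a₀/N = j (a₀ p + a₁ c)/N` because `p d - q c = 1` (`Matrix.det_fin_two`, `γ.det_coe`). -/
theorem Gv_slash (N : ℕ) [NeZero N] (a : Fin 2 → ℤ) (γ : SL(2, ℤ)) :
    Gv N a ∣[(1 : ℤ)] γ = Gv N (Matrix.vecMul a (γ : Matrix (Fin 2) (Fin 2) ℤ)) := by
  funext τ
  have hj : denom γ τ ≠ 0 := denom_ne_zero γ τ
  have hj' : denom γ τ = (γ 1 0 : ℂ) * (τ : ℂ) + (γ 1 1 : ℂ) := Slash_denom γ τ
  have hN : (N : ℂ) ≠ 0 := Nat.cast_ne_zero.2 (NeZero.ne N)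
  have hdet : (γ 0 0 : ℂ) * (γ 1 1 : ℂ) - (γ 0 1 : ℂ) * (γ 1 0 : ℂ) = 1 := by
    have h := γ.det_coe
    rw [Matrix.det_fin_two] at h
    exact_mod_cast h
  rw [ModularForm.SL_slash_apply]
  unfold Gv
  rw [dp_smul, K_smul, zpow_neg, zpow_one]
  have h0 : ((Matrix.vecMul a (γ : Matrix (Fin 2) (Fin 2) ℤ) 0 : ℤ) : ℂ) =
      (a 0 : ℂ) * (γ 0 0 : ℂ) + (a 1 : ℂ) * (γ 1 0 : ℂ) := by
    simp only [Matrix.vecMul, dotProduct, Fin.sum_univ_two]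
    push_cast
    rfl
  have h1 : ((Matrix.vecMul a (γ : Matrix (Fin 2) (Fin 2) ℤ) 1 : ℤ) : ℂ) =
      (a 0 : ℂ) * (γ 0 1 : ℂ) + (a 1 : ℂ) * (γ 1 1 : ℂ) := by
    simp only [Matrix.vecMul, dotProduct, Fin.sum_univ_two]
    push_cast
    rfl
  have key : (γ 1 0 : ℂ) * dp N (Matrix.vecMul a (γ : Matrix (Fin 2) (Fin 2) ℤ)) τ +
      (a 0 : ℂ) / (N : ℂ) =
      denom γ τ * (((Matrix.vecMul a (γ : Matrix (Fin 2) (Fin 2) ℤ) 0 : ℤ) : ℂ) / (N : ℂ)) := by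
    unfold dp
    rw [h0, h1, hj']
    field_simp
    linear_combination (-(a 0 : ℂ)) * hdet
  generalize K τ (dp N (Matrix.vecMul a (γ : Matrix (Fin 2) (Fin 2) ℤ)) τ) = k at *
  field_simp
  field_simp at key
  linear_combination (2 * π * I) * key

end Fermat.Agent.S48.Eis
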